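import Mathlib
import Fermat.Agent.LT.Base.Siegel

set_option autoImplicit false

/-!
# Counting field elements of bounded denominators in boxes
-/

noncomputable section

open NumberField IsDedekindDomain WithZero Filter Module

namespace FermatAgent.LT

variable {K : Type*} [Field K] [NumberField K] [IsTotallyComplex K]

theorem finrank_int_eq_two_mul_card :
    Fintype.card (Free.ChooseBasisIndex ℤ (𝓞 K)) = 2 * Fintype.card (InfinitePlace K) := by
  classical
  rw [← finrank_eq_card_chooseBasisIndex, RingOfIntegers.rank, IsTotallyComplex.finrank,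
    InfinitePlace.card_eq_nrRealPlaces_add_nrComplexPlaces,
    IsTotallyComplex.nrRealPlaces_eq_zero, zero_add]

/-- The integers in a box are few. -/
theorem exists_int_box_count : ∃ C : ℝ, 0 ≤ C ∧ ∀ X : ℝ, 1 ≤ X → ∃ s : Finset (𝓞 K),
    (s.card : ℝ) ≤ C * X ^ (2 * Fintype.card (InfinitePlace K)) ∧
      ∀ y : 𝓞 K, (∀ w : InfinitePlace K, ‖w.embedding (y : K)‖ ≤ X) → y ∈ s := by
  classical
  set b := Minkowski.eBasis K
  set f : Free.ChooseBasisIndex ℤ (𝓞 K) → (Minkowski.ESpace K →L[ℝ] ℝ) :=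
    fun i => LinearMap.toContinuousLinearMap (b.coord i)
  set A := ∑ i, ‖f i‖
  have hA : 0 ≤ A := Finset.sum_nonneg fun i _ => norm_nonneg _
  refine ⟨(2 * A + 1) ^ (2 * Fintype.card (InfinitePlace K)), by positivity, fun X hX => ?_⟩
  set N := ⌊A * X⌋₊
  set box := Fintype.piFinset fun _ : Free.ChooseBasisIndex ℤ (𝓞 K) => Finset.Icc (-(N : ℤ)) N
  refine ⟨box.image fun r => ∑ i, r i • RingOfIntegers.basis K i, ?_, fun y hy => ?_⟩
  · refine (Nat.cast_le.mpr Finset.card_image_le).trans ?_
    simp only [box]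
    rw [Fintype.card_piFinset, Finset.prod_const, Finset.card_univ, Int.card_Icc,
      finrank_int_eq_two_mul_card,
      show ((N : ℤ) + 1 - -(N : ℤ)).toNat = 2 * N + 1 by omega, Nat.cast_pow, ← mul_pow]
    refine pow_le_pow_left₀ (Nat.cast_nonneg _) ?_ _
    push_cast
    nlinarith [Nat.floor_le (show 0 ≤ A * X by positivity)]
  · refine Finset.mem_image.mpr ⟨fun i => (RingOfIntegers.basis K).repr y i, ?_,
      (RingOfIntegers.basis K).sum_repr y⟩
    refine Fintype.mem_piFinset.mpr fun i => ?_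
    have hphi : Minkowski.phi K (y : K) =
        ∑ j, (((RingOfIntegers.basis K).repr y j : ℤ) : ℝ) • b j := by
      conv_lhs => rw [← (RingOfIntegers.basis K).sum_repr y]
      simp only [map_sum]
      refine Finset.sum_congr rfl fun j _ => ?_
      rw [Int.cast_smul_eq_zsmul, map_zsmul, map_zsmul, Minkowski.eBasis_apply]
    have hrep : f i (Minkowski.phi K (y : K)) = (((RingOfIntegers.basis K).repr y i : ℤ) : ℝ) := by
      rw [hphi]
      simp [f, Basis.coord_apply, Finsupp.single_apply]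
    have hnorm : ‖Minkowski.phi K (y : K)‖ ≤ X :=
      (pi_norm_le_iff_of_nonneg (by linarith)).mpr hy
    have h1 := (f i).le_opNorm (Minkowski.phi K (y : K))
    rw [hrep, Real.norm_eq_abs] at h1
    have h2 : |(((RingOfIntegers.basis K).repr y i : ℤ) : ℝ)| ≤ A * X :=
      h1.trans (mul_le_mul (Finset.single_le_sum (f := fun i => ‖f i‖) (fun _ _ => norm_nonneg _)
        (Finset.mem_univ i)) hnorm (norm_nonneg _) hA)
    rw [← Int.cast_abs] at h2
    have h3 : |(RingOfIntegers.basis K).repr y i| ≤ (N : ℤ) := by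
      have : ((|(RingOfIntegers.basis K).repr y i|).toNat : ℝ) ≤ A * X := by
        rw [show ((|(RingOfIntegers.basis K).repr y i|).toNat : ℝ) =
          (((|(RingOfIntegers.basis K).repr y i|).toNat : ℤ) : ℝ) by push_cast; rfl,
          Int.toNat_of_nonneg (abs_nonneg _)]
        exact h2
      have := Nat.le_floor this
      omega
    exact Finset.mem_Icc.mpr (abs_le.mp h3)

/-- The field elements of bounded denominators in a box are few. -/
theorem exists_box_count (e : HeightOneSpectrum (𝓞 K) → ℕ) (he : ∀ᶠ v in cofinite, e v = 0) :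
    ∃ C : ℝ, 0 ≤ C ∧ ∀ X : ℝ, 1 ≤ X → ∃ s : Finset K,
      (s.card : ℝ) ≤ C * X ^ (2 * Fintype.card (InfinitePlace K)) ∧
        ∀ x : K, (∀ v : HeightOneSpectrum (𝓞 K), Valued.v (loc v x) ≤ exp (e v : ℤ)) →
          (∀ w : InfinitePlace K, ‖w.embedding x‖ ≤ X) → x ∈ s := by
  classical
  obtain ⟨m, hm, hmv⟩ := exists_int_small e he
  obtain ⟨C, hC, hbox⟩ := exists_int_box_count (K := K)
  set M := 1 + ∑ w : InfinitePlace K, ‖w.embedding (m : K)‖
  have hM : 1 ≤ M := le_add_of_nonneg_right (Finset.sum_nonneg fun _ _ => norm_nonneg _)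
  refine ⟨C * M ^ (2 * Fintype.card (InfinitePlace K)), by positivity, fun X hX => ?_⟩
  obtain ⟨s, hs, hs'⟩ := hbox (M * X) (one_le_mul_of_one_le_of_one_le hM hX)
  refine ⟨s.image fun y : 𝓞 K => (y : K) / (m : K), ?_, fun x hxv hxw => ?_⟩
  · refine (Nat.cast_le.mpr Finset.card_image_le).trans (hs.trans_eq ?_)
    rw [mul_pow, mul_assoc]
  · have hm0 : (m : K) ≠ 0 := RingOfIntegers.coe_ne_zero_iff.mpr hm
    obtain ⟨y, hy⟩ := HeightOneSpectrum.mem_integers_of_valuation_le_one (R := 𝓞 K) K ((m : K) * x)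
      fun v => by
        rw [← valued_loc, map_mul, map_mul]
        refine (mul_le_mul' (hmv v) (hxv v)).trans (le_of_eq ?_)
        rw [← exp_add, neg_add_cancel, exp_zero]
    refine Finset.mem_image.mpr ⟨y, hs' y fun w => ?_, ?_⟩
    · change ‖w.embedding (algebraMap (𝓞 K) K y)‖ ≤ _
      rw [hy, map_mul, norm_mul]
      refine mul_le_mul ?_ (hxw w) (norm_nonneg _) (by linarith)
      have := Finset.single_le_sum (f := fun w : InfinitePlace K => ‖w.embedding (m : K)‖)
        (fun _ _ => norm_nonneg _) (Finset.mem_univ w)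
      linarith
    · change algebraMap (𝓞 K) K y / (m : K) = x
      rw [hy, mul_div_cancel_left₀ _ hm0]

end FermatAgent.LT
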