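import Mathlib
import Fermat.Agent.LT.Base.Siegel
import Fermat.Agent.LT.Descent.Kernel.Conv

set_option autoImplicit false

/-!
# Balls and their horizontal translates
-/

noncomputable section

open MeasureTheory NumberField IsDedekindDomain Set
open scoped MatrixGroups ENNReal

namespace FermatAgent.LT

namespace H3

/-- The horizontal translate of a point. -/
def shift (P : H3) (a : ℂ) : H3 := ⟨P.z + a, P.t, P.t_pos⟩

theorem mem_ball_t {P Q : H3} {ε : ℝ} (hε : 0 ≤ ε) (h : Q ∈ ball P ε) :
    P.t * Real.exp (-ε) ≤ Q.t ∧ Q.t ≤ P.t * Real.exp ε := by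
  rw [← preimage_ballSet P hε] at h
  exact h.1

/-- The disc sections of two unit balls with centres at distance `δ` at height `1`. -/
theorem volume_disc_sdiff_le {r δ : ℝ} (hr : 0 ≤ r) (a : ℂ) (ha : ‖a‖ ≤ δ) :
    volume (Metric.closedBall (0 : ℂ) r \ Metric.closedBall a r) ≤
      ENNReal.ofReal (2 * r * δ * Real.pi) := by
  have hδ : 0 ≤ δ := (norm_nonneg a).trans ha
  have hm : 0 ≤ max (r - δ) 0 := le_max_right _ _
  have hsub : Metric.ball (0 : ℂ) (max (r - δ) 0) ⊆ Metric.closedBall a r := by
    intro z hz
    rw [mem_ball_zero_iff] at hz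
    rw [Metric.mem_closedBall, dist_eq_norm]
    rcases le_or_gt (r - δ) 0 with h | h
    · rw [max_eq_right h] at hz
      exact absurd hz (not_lt.mpr (norm_nonneg z))
    · rw [max_eq_left h.le] at hz
      linarith [norm_sub_le z a]
  refine (measure_mono (Set.sdiff_subset_sdiff_right hsub)).trans ?_
  have hle : max (r - δ) 0 ≤ r := max_le (by linarith) hr
  rw [measure_sdiff (Metric.ball_subset_closedBall.trans (Metric.closedBall_subset_closedBall hle))
    measurableSet_ball.nullMeasurableSet measure_ball_lt_top.ne, Complex.volume_closedBall,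
    Complex.volume_ball, ← ENNReal.ofReal_pow hr, ← ENNReal.ofReal_pow hm, ← NNReal.coe_real_pi,
    ENNReal.ofReal_mul' NNReal.pi.coe_nonneg, ENNReal.ofReal_coe_nnreal]
  refine tsub_le_iff_right.mpr ?_
  rw [← add_mul, ← ENNReal.ofReal_add (by positivity) (by positivity)]
  refine mul_le_mul_left (ENNReal.ofReal_le_ofReal ?_) _
  rcases le_or_gt (r - δ) 0 with h | h
  · rw [max_eq_right h]; nlinarith
  · rw [max_eq_left h.le]; nlinarith

/-- A unit ball and its horizontal translate differ by a volume linear in the hyperbolic shift. -/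
theorem exists_vol_ball_sdiff_le : ∃ K : ℝ, 0 ≤ K ∧ ∀ (P : H3) (a : ℂ),
    vol (ball P 1 \ ball (shift P a) 1) ≤ ENNReal.ofReal (K * (‖a‖ / P.t)) := by
  set E := Real.exp 1
  set rM := Real.sqrt (2 * E * Real.cosh 1) with hrM
  refine ⟨E ^ 3 * (2 * rM * Real.pi * E), by positivity, fun P a => ?_⟩
  set g : GL (Fin 2) ℂ := upperTri (Units.mk0 (P.t : ℂ) (by simp [P.t_pos.ne'])) P.z 1 with hg
  set b : ℂ := a / P.t with hb
  have hgP : g • base = P := by
    obtain ⟨h1, h2⟩ := upperTri_smul (Units.mk0 (P.t : ℂ) (by simp [P.t_pos.ne'])) P.z base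
    refine H3.ext ?_ ?_
    · simpa [base] using h1
    · simpa [base, abs_of_pos P.t_pos] using h2
  have hgQ : g • shift base b = shift P a := by
    obtain ⟨h1, h2⟩ := upperTri_smul (Units.mk0 (P.t : ℂ) (by simp [P.t_pos.ne'])) P.z (shift base b)
    refine H3.ext ?_ ?_
    · have h3 : (P.t : ℂ) * b = a := by
        rw [hb, mul_div_cancel₀]; simp [P.t_pos.ne']
      rw [h1]
      simp [shift, base, h3, add_comm]
    · simpa [shift, base, abs_of_pos P.t_pos] using h2
  have hred : vol (ball P 1 \ ball (shift P a) 1) = vol (ball base 1 \ ball (shift base b) 1) := by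
    conv_lhs => rw [← (measurePreserving_h3_smul g).measure_preimage
      ((measurableSet_ball_h3 _ _).diff (measurableSet_ball_h3 _ _)).nullMeasurableSet]
    rw [Set.preimage_sdiff, ← hgQ, smul_ball, show ball P 1 = ball (g • base) 1 by rw [hgP], smul_ball]
  have hmeas := (measurableSet_ball_h3 base 1).diff (measurableSet_ball_h3 (shift base b) 1)
  rw [hred, vol_eq hmeas]
  set S := coords '' (ball base 1 \ ball (shift base b) 1) with hS
  have hSsub : S ⊆ ballSet base 1 \ ballSet (shift base b) 1 := by
    rintro _ ⟨Q, ⟨h1, h2⟩, rfl⟩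
    rw [← preimage_ballSet _ zero_le_one] at h1 h2
    exact ⟨h1, h2⟩
  set T := ballSet base 1 \ ballSet (shift base b) 1
  have hT : MeasurableSet T := (isCompact_ballSet _ _).measurableSet.diff
    (isCompact_ballSet _ _).measurableSet
  have hnb : ‖b‖ = ‖a‖ / P.t := by
    rw [hb, norm_div, Complex.norm_real, Real.norm_of_nonneg P.t_pos.le]
  calc ∫⁻ x in S, ENNReal.ofReal (x.2 ^ 3)⁻¹
      ≤ ∫⁻ x in T, ENNReal.ofReal (x.2 ^ 3)⁻¹ := lintegral_mono_set hSsub
    _ ≤ ∫⁻ _ in T, ENNReal.ofReal (E ^ 3) := by
      refine setLIntegral_mono measurable_const fun x hx => ENNReal.ofReal_le_ofReal ?_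
      have hx2 : Real.exp (-1) ≤ x.2 := by simpa [base] using hx.1.1.1
      rw [show E ^ 3 = ((Real.exp (-1)) ^ 3)⁻¹ by
        rw [← inv_pow, ← Real.exp_neg, neg_neg]]
      exact inv_anti₀ (by positivity) (pow_le_pow_left₀ (Real.exp_pos _).le hx2 3)
    _ = ENNReal.ofReal (E ^ 3) * volume T := setLIntegral_const _ _
    _ ≤ ENNReal.ofReal (E ^ 3) * ENNReal.ofReal (2 * rM * Real.pi * ‖b‖ * E) := by
      refine mul_le_mul_right ?_ _
      rw [Measure.volume_eq_prod, Measure.prod_apply_symm hT]
      calc ∫⁻ s, volume ((fun z => (z, s)) ⁻¹' T)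
          ≤ ∫⁻ s, (Icc (Real.exp (-1)) E).indicator
              (fun _ => ENNReal.ofReal (2 * rM * ‖b‖ * Real.pi)) s := by
            refine lintegral_mono fun s => ?_
            by_cases hs : s ∈ Icc (Real.exp (-1)) E
            · rw [indicator_of_mem hs]
              set r := Real.sqrt (2 * 1 * s * Real.cosh 1 - 1 ^ 2 - s ^ 2)
              have hu : (0 : ℝ) ≤ 2 * 1 * s * Real.cosh 1 - 1 ^ 2 - s ^ 2 := by
                have he : Real.exp (-1) * E = 1 := by
                  rw [← Real.exp_add, neg_add_cancel, Real.exp_zero]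
                have h' := mul_nonneg (sub_nonneg.mpr hs.1) (sub_nonneg.mpr hs.2)
                rw [Real.cosh_eq]
                nlinarith
              have hr : r ≤ rM := by
                refine Real.sqrt_le_sqrt ?_
                have := mul_le_mul_of_nonneg_right hs.2 (Real.cosh_pos 1).le
                nlinarith [sq_nonneg s]
              refine (measure_mono (t := Metric.closedBall 0 r \ Metric.closedBall b r)
                fun z hz => ?_).trans ((volume_disc_sdiff_le (Real.sqrt_nonneg _) b le_rfl).trans
                (ENNReal.ofReal_le_ofReal ?_))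
              · refine ⟨?_, fun hzb => hz.2 ⟨?_, ?_⟩⟩
                · rw [mem_closedBall_zero_iff, Real.le_sqrt (norm_nonneg _) hu]
                  have := hz.1.2
                  simpa [base] using this
                · simpa [shift, base] using hs
                · rw [Metric.mem_closedBall, dist_eq_norm, Real.le_sqrt (norm_nonneg _) hu] at hzb
                  simpa [shift, base] using hzb
              · have hb0 := norm_nonneg b
                have := Real.pi_pos
                gcongr
            · rw [indicator_of_notMem hs]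
              refine le_of_eq ?_
              convert measure_empty (μ := (volume : Measure ℂ))
              ext z
              simp only [mem_preimage, mem_empty_iff_false, iff_false]
              intro hz
              exact hs (by simpa [base] using hz.1.1)
        _ ≤ _ := lintegral_indicator_const_le _ _
        _ ≤ _ := by
          rw [Real.volume_Icc, ← ENNReal.ofReal_mul (by positivity)]
          refine ENNReal.ofReal_le_ofReal ?_
          have h1 : E - Real.exp (-1) ≤ E := sub_le_self _ (Real.exp_pos _).le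
          calc 2 * rM * ‖b‖ * Real.pi * (E - Real.exp (-1)) ≤ 2 * rM * ‖b‖ * Real.pi * E :=
                mul_le_mul_of_nonneg_left h1 (by positivity)
            _ = _ := by ring
    _ = _ := by
      rw [← ENNReal.ofReal_mul (by positivity), hnb]
      congr 1
      ring

end H3

variable {L : Type*} [Field L] [NumberField L]

/-- The product of the unit balls. -/
def xBall (x : XInf L) : Set (XInf L) := univ.pi fun w => H3.ball (x w) 1

theorem measurableSet_xBall (x : XInf L) : MeasurableSet (xBall x) :=
  MeasurableSet.univ_pi fun _ => H3.measurableSet_ball_h3 _ _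

open Classical in
theorem prodKer_ball (x u : XInf L) :
    prodKer (fun _ => H3.ballKer 1) x u = (xBall x).indicator (fun _ => (1 : ℂ)) u := by
  by_cases h : u ∈ xBall x
  · rw [indicator_of_mem h]
    exact Finset.prod_eq_one fun w _ => indicator_of_mem (h w trivial) _
  · rw [indicator_of_notMem h]
    simp only [xBall, Set.mem_pi, mem_univ, true_implies, not_forall] at h
    obtain ⟨w, hw⟩ := h
    exact Finset.prod_eq_zero (Finset.mem_univ w) (indicator_of_notMem hw _)

theorem vol_xBall (x : XInf L) :
    (Measure.pi fun _ : InfinitePlace L => H3.vol) (xBall x) =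
      H3.vol (H3.ball H3.base 1) ^ Fintype.card (InfinitePlace L) := by
  rw [xBall, Measure.pi_pi]
  simp only [H3.vol_ball_eq _ (1 : ℝ), Finset.prod_const, Finset.card_univ]

theorem vol_xBall_lt_top (x : XInf L) :
    (Measure.pi fun _ : InfinitePlace L => H3.vol) (xBall x) < ⊤ := by
  rw [vol_xBall]
  exact ENNReal.pow_lt_top (H3.vol_ball_lt_top _ _)

/-- A product of balls and a translate differ by a volume linear in the shift. -/
theorem exists_vol_xBall_sdiff_le : ∃ K : ℝ, 0 ≤ K ∧ ∀ (x x' : XInf L) (a : InfinitePlace L → ℂ),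
    (∀ w, x' w = H3.shift (x w) (a w)) →
      (Measure.pi fun _ : InfinitePlace L => H3.vol) (xBall x \ xBall x') ≤
        ENNReal.ofReal (K * ∑ w, ‖a w‖ / (x w).t) := by
  classical
  obtain ⟨K, hK, hKb⟩ := H3.exists_vol_ball_sdiff_le
  set V := (H3.vol (H3.ball H3.base 1)).toReal
  refine ⟨K * V ^ (Fintype.card (InfinitePlace L) - 1), by positivity, fun x x' a ha => ?_⟩
  have hsub : xBall x \ xBall x' ⊆ ⋃ w, univ.pi (Function.update
      (fun u => H3.ball (x u) 1) w (H3.ball (x w) 1 \ H3.ball (x' w) 1)) := by
    rintro y ⟨h1, h2⟩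
    simp only [xBall, Set.mem_pi, mem_univ, true_implies, not_forall] at h2
    obtain ⟨w, hw⟩ := h2
    refine mem_iUnion.mpr ⟨w, fun u _ => ?_⟩
    rcases eq_or_ne u w with rfl | hu
    · rw [Function.update_self]
      exact ⟨h1 u trivial, hw⟩
    · rw [Function.update_of_ne hu]
      exact h1 u trivial
  refine (measure_mono hsub).trans ((measure_iUnion_fintype_le _ _).trans ?_)
  rw [Finset.mul_sum, ENNReal.ofReal_sum_of_nonneg fun w _ => by
    have := (x w).t_pos; positivity]
  refine Finset.sum_le_sum fun w _ => ?_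
  rw [Measure.pi_pi]
  simp only [Function.apply_update (fun _ s => H3.vol s)]
  rw [Finset.prod_update_of_mem (Finset.mem_univ w)]
  simp only [H3.vol_ball_eq _ (1 : ℝ), Finset.prod_const, Finset.card_sdiff, Finset.singleton_inter,
    Finset.mem_univ, if_true, Finset.card_univ, Finset.card_singleton]
  refine (mul_le_mul_left (hKb (x w) (a w) |>.trans' (by rw [ha w])) _).trans (le_of_eq ?_)
  rw [← ENNReal.ofReal_toReal (H3.vol_ball_lt_top H3.base 1).ne,
    ← ENNReal.ofReal_pow ENNReal.toReal_nonneg, ← ENNReal.ofReal_mul (by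
      have := (x w).t_pos; positivity)]
  congr 1
  simp only [V]
  ring

end FermatAgent.LT
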