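import Mathlib
import Fermat.Agent.LT.Base.Siegel
import Fermat.Agent.LT.Descent.Kernel.Defs

set_option autoImplicit false

/-!
# Rational translations with vanishing sum for cuspidal functions
-/

noncomputable section

open MeasureTheory NumberField IsDedekindDomain WithZero Filter
open scoped MatrixGroups

namespace FermatAgent.LT

variable {L : Type*} [Field L] [NumberField L] {𝔫 : Ideal (𝓞 L)}

/-- The translation at one place as an upper triangular adelic matrix. -/
theorem transl_eq_upperTri (v : HeightOneSpectrum (𝓞 L)) (b : 𝓞 L) :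
    transl v b = upperTri 1 (updAt v (loc v (b : L)) 0) 1 := by
  refine Units.ext (Matrix.ext fun i j => FiniteAdeleRing.ext _ fun w => ?_)
  change updAt v _ _ w = _
  rcases eq_or_ne w v with rfl | h
  · rw [updAt_self]
    fin_cases i <;> fin_cases j <;> simp [upperTri, updAt_self] <;> rfl
  · rw [updAt_of_ne v _ _ h]
    fin_cases i <;> fin_cases j <;> simp [upperTri, updAt_of_ne v _ _ h] <;> rfl

/-- An element of `GL₂(∏ O_w)` and its component at `v` conjugate the translations at `v` alike. -/
theorem conj_atPlace_transl (v : HeightOneSpectrum (𝓞 L)) (k : GL (Fin 2) (IntAd L)) (b : 𝓞 L) :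
    atPlace v (Matrix.GeneralLinearGroup.map (v.adicCompletionIntegers L).subtype
        (Matrix.GeneralLinearGroup.map
          (Pi.evalRingHom (fun w : HeightOneSpectrum (𝓞 L) => w.adicCompletionIntegers L) v) k))⁻¹ *
      transl v b *
      atPlace v (Matrix.GeneralLinearGroup.map (v.adicCompletionIntegers L).subtype
        (Matrix.GeneralLinearGroup.map
          (Pi.evalRingHom (fun w : HeightOneSpectrum (𝓞 L) => w.adicCompletionIntegers L) v) k)) =
    (Matrix.GeneralLinearGroup.map intToAdele k)⁻¹ * transl v b *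
      Matrix.GeneralLinearGroup.map intToAdele k := by
  set kv := Matrix.GeneralLinearGroup.map (v.adicCompletionIntegers L).subtype
        (Matrix.GeneralLinearGroup.map
          (Pi.evalRingHom (fun w : HeightOneSpectrum (𝓞 L) => w.adicCompletionIntegers L) v) k)
  set K := Matrix.GeneralLinearGroup.map intToAdele k
  have h : transl v b * atPlace v kv * K⁻¹ = atPlace v kv * K⁻¹ * transl v b := by
    refine Units.ext (Matrix.ext fun i j => FiniteAdeleRing.ext _ fun w => ?_)
    rw [transl, Matrix.GeneralLinearGroup.coe_mul, Matrix.GeneralLinearGroup.coe_mul,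
      Matrix.GeneralLinearGroup.coe_mul, Matrix.GeneralLinearGroup.coe_mul]
    simp only [Matrix.mul_apply, Fin.sum_univ_two, adele_add_apply, adele_mul_apply]
    rcases eq_or_ne w v with rfl | hw
    · have hk : ∀ a c : Fin 2, (kv a 0) * ((K⁻¹ : GAf L) 0 c) w + (kv a 1) * ((K⁻¹ : GAf L) 1 c) w
          = if a = c then 1 else 0 := fun a c => by
        have h1 := congrArg (fun M : Matrix (Fin 2) (Fin 2) (Adf L) => M a c w) K.mul_inv
        simp only [Matrix.mul_apply, Fin.sum_univ_two, adele_add_apply, adele_mul_apply,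
          Matrix.one_apply] at h1
        split_ifs at h1 ⊢ with hac <;> exact h1
      simp only [show ∀ (M : GL (Fin 2) (w.adicCompletion L)) a c,
        (atPlace w M a c) w = M a c from fun M a c => updAt_self w _ _]
      simp only [upperTri]
      have := hk 0 0
      have := hk 0 1
      have := hk 1 0
      have := hk 1 1
      fin_cases i <;> fin_cases j <;> simp at * <;> grind
    · simp only [show ∀ (M : GL (Fin 2) (v.adicCompletion L)) a c,
        (atPlace v M a c) w = ((if a = c then 1 else 0 : ℕ) : w.adicCompletion L) from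
          fun M a c => updAt_of_ne v _ _ hw]
      fin_cases i <;> fin_cases j <;> simp
  calc (atPlace v kv⁻¹) * transl v b * atPlace v kv
      = (atPlace v kv)⁻¹ * (transl v b * atPlace v kv * K⁻¹) * K := by rw [map_inv]; group
    _ = K⁻¹ * transl v b * K := by rw [h]; group

/-- The rational translations at one coset with vanishing sum. -/
theorem exists_zero_sum (h𝔫 : 𝔫 ≠ ⊥) {v : HeightOneSpectrum (𝓞 L)} (g : GAf L) :
    ∃ (ι : Type) (_ : Fintype ι) (_ : Nonempty ι) (a : ι → L),
      ∀ φ : XInf L → GAf L → ℂ, (∀ γ x h, φ (infAct γ x) (rationalMat γ * h) = φ x h) →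
        (∀ k ∈ congrSubgroup 𝔫, ∀ x h, φ x (h * k) = φ x h) →
        (∀ (c : (Adf L)ˣ) x h, φ x (h * upperTri c 0 c) = φ x h) → IsCuspidalAt v φ →
        ∀ x, ∑ i, φ (infAct (upperTri 1 (a i) 1) x) g = 0 := by
  classical
  obtain ⟨A, D, B, k, hg⟩ := exists_iwasawa g
  set kap : GAf L := Matrix.GeneralLinearGroup.map intToAdele k with hkap
  obtain ⟨e, he, he0⟩ := exists_levelExp h𝔫
  obtain ⟨e', he', hc⟩ := IsNearOne.exists_conj kap⁻¹ e he0
  set s : Adf L := ((A⁻¹ : (Adf L)ˣ) : Adf L) * (D : Adf L) with hsdef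
  obtain ⟨f, hf, hfb⟩ := exists_exp_bound ({s} : Finset (Adf L))
  set rep : 𝓞 L ⧸ v.asIdeal → 𝓞 L :=
    Function.surjInv (Ideal.Quotient.mk_surjective (I := v.asIdeal)) with hrep
  have hev : ∀ᶠ w in cofinite, (fun w => e' w + f w) w = 0 := by
    filter_upwards [he', hf] with w h1 h2
    simp [h1, h2]
  choose a ha using fun b : 𝓞 L ⧸ v.asIdeal =>
    exists_sub_small (-(updAt v (loc v (rep b : L)) 0 * ((A : Adf L) * ((D⁻¹ : (Adf L)ˣ) : Adf L))))
      (fun w => e' w + f w) hev
  have : Finite (𝓞 L ⧸ v.asIdeal) := Ideal.finiteQuotientOfFreeOfNeBot _ v.ne_bot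
  have : Fintype (𝓞 L ⧸ v.asIdeal) := Fintype.ofFinite _
  let E := Fintype.equivFin (𝓞 L ⧸ v.asIdeal)
  refine ⟨Fin (Fintype.card (𝓞 L ⧸ v.asIdeal)), inferInstance, ⟨E 0⟩, fun i => a (E.symm i),
    fun φ hrat hlev _ hcusp x => ?_⟩
  rw [Fintype.sum_equiv E.symm (fun i => φ (infAct (upperTri 1 (a (E.symm i)) 1) x) g)
    (fun b => φ (infAct (upperTri 1 (a b) 1) x) g) fun i => rfl]
  set kq : GL (Fin 2) (v.adicCompletionIntegers L) := Matrix.GeneralLinearGroup.map
    (Pi.evalRingHom (fun w : HeightOneSpectrum (𝓞 L) => w.adicCompletionIntegers L) v) k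
  set kv := Matrix.GeneralLinearGroup.map (v.adicCompletionIntegers L).subtype kq with hkv
  have h0 := hcusp x (g * (atPlace v kv)⁻¹) kq
  rw [finsum_eq_sum_of_fintype, ← hkv] at h0
  rw [← h0]
  refine Finset.sum_congr rfl fun b _ => ?_
  set γ : GL (Fin 2) L := upperTri 1 (a b) 1
  set t : Adf L := updAt v (loc v (rep b : L)) 0
  have hconj : (atPlace v kv)⁻¹ * transl v (rep b) * atPlace v kv =
      kap⁻¹ * transl v (rep b) * kap := by
    rw [← map_inv]; exact conj_atPlace_transl v k (rep b)
  have hsmall : s * algebraMap L (Adf L) (a b) + t ∈ smallAdeles e' := by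
    intro w
    have h1 : s * ((A : Adf L) * ((D⁻¹ : (Adf L)ˣ) : Adf L)) = 1 := by
      simp only [hsdef]
      calc _ = (((A⁻¹ : (Adf L)ˣ) : Adf L) * A) * (((D⁻¹ : (Adf L)ˣ) : Adf L) * D) := by ring
        _ = 1 := by rw [Units.inv_mul, Units.inv_mul, mul_one]
    have h2 : s * algebraMap L (Adf L) (a b) + t =
        -(s * (-(t * ((A : Adf L) * ((D⁻¹ : (Adf L)ˣ) : Adf L))) - algebraMap L (Adf L) (a b))) := by
      linear_combination (-t) * h1
    have h3 := hfb s (Finset.mem_singleton_self s) w
    have h4 := ha b w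
    rw [h2]
    change Valued.v (-((s w) * ((-(t * ((A : Adf L) * ((D⁻¹ : (Adf L)ˣ) : Adf L)))) w -
      loc w (a b)))) ≤ _
    rw [Valuation.map_neg, map_mul]
    refine (mul_le_mul' h3 h4).trans (le_of_eq ?_)
    rw [← exp_add]
    congr 1
    push_cast
    ring
  set u : GAf L := kap⁻¹ * upperTri 1 (s * algebraMap L (Adf L) (a b) + t) 1 * kap with hu
  have humem : u ∈ congrSubgroup 𝔫 := by
    have := hc _ (isNearOne_upperUni hsmall)
    rw [inv_inv] at this
    exact this.mem_congrSubgroup he
  have key : g * (atPlace v kv)⁻¹ * transl v (rep b) * atPlace v kv = rationalMat γ⁻¹ * g * u := by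
    have e1 : g * (atPlace v kv)⁻¹ * transl v (rep b) * atPlace v kv =
        g * ((atPlace v kv)⁻¹ * transl v (rep b) * atPlace v kv) := by group
    have e2 : rationalMat γ * upperTri A B D =
        upperTri A B D * upperTri 1 (s * algebraMap L (Adf L) (a b)) 1 := by
      simp only [γ, rationalMat, map_upperTri, map_one, upperTri_mul_upperTri, one_mul, mul_one]
      refine congrArg (fun c => upperTri A c D) ?_
      simp only [Units.val_one, one_mul, mul_one, hsdef]
      have hA : (A : Adf L) * ((A⁻¹ : (Adf L)ˣ) : Adf L) = 1 := Units.mul_inv A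
      linear_combination (-(D : Adf L) * algebraMap L (Adf L) (a b)) * hA
    have e3 : upperTri A B D * transl v (rep b) =
        rationalMat γ⁻¹ * upperTri A B D * upperTri 1 (s * algebraMap L (Adf L) (a b) + t) 1 := by
      have e4 : upperTri (1 : (Adf L)ˣ) (s * algebraMap L (Adf L) (a b) + t) 1 =
          upperTri 1 (s * algebraMap L (Adf L) (a b)) 1 * upperTri 1 t 1 := by
        rw [upperTri_mul_upperTri]; simp [add_comm]
      rw [map_inv, eq_comm, mul_assoc, inv_mul_eq_iff_eq_mul, e4, ← mul_assoc, ← e2,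
        transl_eq_upperTri, mul_assoc]
    rw [e1, hconj, hu, hg]
    calc upperTri A B D * kap * (kap⁻¹ * transl v (rep b) * kap)
        = upperTri A B D * transl v (rep b) * kap := by group
      _ = _ := by rw [e3]; group
  rw [key, hlev u humem]
  calc φ (infAct γ x) g = φ (infAct γ x) (rationalMat γ * (rationalMat γ⁻¹ * g)) := by
        rw [← mul_assoc, ← map_mul, mul_inv_cancel, map_one, one_mul]
    _ = _ := hrat γ x _

end FermatAgent.LT
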