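import Mathlib
import Fermat.Agent.LT.Descent.Spectral.YKer
import Fermat.Agent.LT.Descent.Spectral.Bound.ZeroSum
import Fermat.Agent.LT.Descent.Spectral.Bound.Shift

set_option autoImplicit false

/-!
# Cuspidality gains one power of the height
-/

noncomputable section

open MeasureTheory NumberField IsDedekindDomain Set Filter
open scoped MatrixGroups ENNReal

namespace FermatAgent.LT

variable {L : Type*} [Field L] [NumberField L] {𝔫 : Ideal (𝓞 L)}

/-- The sum of the heights. -/
def heightSum (x : XInf L) : ℝ := ∑ w, (x w).t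

/-- A cusp strip: heights bounded below and comparable. -/
def stripInf (c R : ℝ) : Set (XInf L) :=
  {x | ∀ w, c ≤ (x w).t ∧ ∀ u, (x w).t ≤ R * (x u).t}

/-- Growth at most the `b`-th power of the height in every strip over finitely many cosets,
uniformly in a parameter. -/
def HasStripGrowth {ι : Type*} (F : ι → YSpace 𝔫 → ℂ) (b : ℕ) : Prop :=
  ∀ c R : ℝ, 0 < c → ∀ D : Set (Cosets 𝔫), D.Finite → ∃ C : ℝ, 0 ≤ C ∧
    ∀ i, ∀ x ∈ stripInf c R, ∀ q ∈ D, ‖F i (x, q)‖ ≤ C * heightSum x ^ b

theorem le_heightSum (x : XInf L) (w : InfinitePlace L) : (x w).t ≤ heightSum x :=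
  Finset.single_le_sum (f := fun w => (x w).t) (fun u _ => (x u).t_pos.le) (Finset.mem_univ w)

theorem heightSum_nonneg (x : XInf L) : 0 ≤ heightSum x :=
  Finset.sum_nonneg fun u _ => (x u).t_pos.le

theorem heightSum_le {c R : ℝ} {x : XInf L} (hx : x ∈ stripInf c R) (w : InfinitePlace L) :
    heightSum x ≤ Fintype.card (InfinitePlace L) * R * (x w).t := by
  refine (Finset.sum_le_card_nsmul Finset.univ (fun u => (x u).t) (R * (x w).t)
    fun u _ => (hx u).2 w).trans_eq ?_
  rw [nsmul_eq_mul, Finset.card_univ, mul_assoc]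

theorem HasStripGrowth.succ {ι : Type*} {F : ι → YSpace 𝔫 → ℂ} {b : ℕ} (h : HasStripGrowth F b) :
    HasStripGrowth F (b + 1) := by
  intro c R hc D hD
  obtain ⟨C, hC, hb⟩ := h c R hc D hD
  refine ⟨C / c, by positivity, fun i x hx q hq => (hb i x hx q hq).trans ?_⟩
  obtain ⟨w⟩ : Nonempty (InfinitePlace L) := inferInstance
  have h1 : c ≤ heightSum x := (hx w).1.trans (le_heightSum x w)
  have h2 := pow_nonneg (heightSum_nonneg x) b
  rw [div_mul_eq_mul_div, le_div_iff₀ hc, pow_succ, ← mul_assoc]
  exact mul_le_mul_of_nonneg_left h1 (by positivity)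

omit [NumberField L] in
theorem xBall_subset_strip {c R : ℝ} {x : XInf L} (hx : x ∈ stripInf c R) :
    xBall x ⊆ stripInf (c * Real.exp (-1)) (R * Real.exp 1 * Real.exp 1) := by
  intro u hu w
  obtain ⟨w1, w2⟩ := H3.mem_ball_t zero_le_one (hu w trivial)
  refine ⟨(mul_le_mul_of_nonneg_right (hx w).1 (Real.exp_pos _).le).trans w1, fun v => ?_⟩
  obtain ⟨v1, -⟩ := H3.mem_ball_t zero_le_one (hu v trivial)
  have hR : 0 ≤ R := le_of_mul_le_mul_right
    (by rw [zero_mul]; exact (x w).t_pos.le.trans ((hx w).2 v)) (x v).t_pos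
  have e : Real.exp (-1) * Real.exp 1 = 1 := by rw [← Real.exp_add, neg_add_cancel, Real.exp_zero]
  calc (u w).t ≤ (x w).t * Real.exp 1 := w2
    _ ≤ R * (x v).t * Real.exp 1 := mul_le_mul_of_nonneg_right ((hx w).2 v) (Real.exp_pos _).le
    _ = R * Real.exp 1 * Real.exp 1 * ((x v).t * Real.exp (-1)) := by
      linear_combination (-(R * (x v).t * Real.exp 1)) * e
    _ ≤ _ := mul_le_mul_of_nonneg_left v1 (by positivity)

theorem heightSum_le_of_mem_xBall {x u : XInf L} (hu : u ∈ xBall x) :
    heightSum u ≤ Real.exp 1 * heightSum x := by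
  rw [heightSum, heightSum, Finset.mul_sum]
  exact Finset.sum_le_sum fun w _ =>
    (H3.mem_ball_t zero_le_one (hu w trivial)).2.trans_eq (mul_comm _ _)

/-- The transport of the volume by a rational element, as a measurable equivalence. -/
def infEquiv (γ : GL (Fin 2) L) : XInf L ≃ᵐ XInf L where
  toFun := infAct γ
  invFun := infAct γ⁻¹
  left_inv x := funext fun w => by simp [infAct, map_inv]
  right_inv x := funext fun w => by simp [infAct, map_inv]
  measurable_toFun := (measurePreserving_infAct γ).measurable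
  measurable_invFun := (measurePreserving_infAct γ⁻¹).measurable

omit [NumberField L] in
theorem preimage_xBall (γ : GL (Fin 2) L) (x : XInf L) :
    infAct γ ⁻¹' xBall (infAct γ x) = xBall x := by
  ext u
  simp only [xBall, mem_preimage, Set.mem_pi, mem_univ, true_implies]
  refine forall_congr' fun w => ?_
  rw [← H3.smul_ball (Matrix.GeneralLinearGroup.map w.embedding γ) (x w) 1]
  rfl

/-- The difference of the integrals over a ball and its translate. -/
theorem norm_setIntegral_sub_le {X E : Type*} [MeasurableSpace X] [NormedAddCommGroup E]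
    [NormedSpace ℝ E] {μ : Measure X} {G : X → E} {A B : Set X} (hA : MeasurableSet A)
    (hB : MeasurableSet B) (hAi : IntegrableOn G A μ) (hBi : IntegrableOn G B μ) {M : ℝ}
    (hM : ∀ u ∈ A ∪ B, ‖G u‖ ≤ M) (hAt : μ A < ⊤) (hBt : μ B < ⊤) :
    ‖(∫ u in A, G u ∂μ) - ∫ u in B, G u ∂μ‖ ≤ M * μ.real (A \ B) + M * μ.real (B \ A) := by
  rw [← integral_inter_add_sdiff hB hAi, ← integral_inter_add_sdiff hA hBi, inter_comm B A,
    add_sub_add_left_eq_sub]
  refine (norm_sub_le _ _).trans (add_le_add ?_ ?_)
  · exact norm_setIntegral_le_of_norm_le_const ((measure_mono sdiff_subset).trans_lt hAt)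
      fun u hu => hM u (Or.inl hu.1)
  · exact norm_setIntegral_le_of_norm_le_const ((measure_mono sdiff_subset).trans_lt hBt)
      fun u hu => hM u (Or.inr hu.1)

open Classical in
/-- **The gain.** The unit balls times a cuspidal operator lower the growth of invariant functions
by one power of the height. -/
theorem HasStripGrowth.yOp_ball (h𝔫 : 𝔫 ≠ ⊥) {T : Module.End ℂ (Cosets 𝔫 → ℂ)}
    (hT : IsCosetOp T) {v : HeightOneSpectrum (𝓞 L)} (hv : IsCuspOpAt v T) {ι : Type*}
    {F : ι → YSpace 𝔫 → ℂ} (hm : ∀ i, Measurable (F i))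
    (hinv : ∀ i (γ : PGL(2, L)) y, F i (γ • y) = F i y) {b : ℕ}
    (hF : HasStripGrowth F (b + 1)) :
    HasStripGrowth (fun i => yOp (yKer (fun _ => H3.ballKer 1) T) (F i)) b := by
  intro c R hc D hD
  have := Fact.mk h𝔫
  set μ := Measure.pi fun _ : InfinitePlace L => H3.vol
  have hD' : (⋃ q ∈ D, Function.support fun p => finKer T q p).Finite :=
    hD.biUnion fun q _ => hT.row q
  set D' := ⋃ q ∈ D, Function.support fun p => finKer T q p
  obtain ⟨C, hC0, hC⟩ :=
    hF (c * Real.exp (-1)) (R * Real.exp 1 * Real.exp 1) (by positivity) D' hD'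
  set S := ∑ q ∈ hD.toFinset, ∑ p ∈ hD'.toFinset, ‖finKer T q p‖
  have hS0 : 0 ≤ S := Finset.sum_nonneg fun _ _ => Finset.sum_nonneg fun _ _ => norm_nonneg _
  choose κ fκ neκ a ha using fun q : Cosets 𝔫 => exists_zero_sum h𝔫 (v := v) q.out
  set A := ∑ q ∈ hD.toFinset, (letI := fκ q; ∑ i, ∑ w : InfinitePlace L, ‖w.embedding (a q i)‖)
  have hA0 : 0 ≤ A := Finset.sum_nonneg fun _ _ =>
    Finset.sum_nonneg fun _ _ => Finset.sum_nonneg fun _ _ => norm_nonneg _
  obtain ⟨K, hK, hKv⟩ := exists_vol_xBall_sdiff_le (L := L)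
  set n := (Fintype.card (InfinitePlace L) : ℝ)
  refine ⟨2 * S * C * Real.exp 1 ^ (b + 1) * (K * (A * (n * max R 0))), by positivity,
    fun i x hx q hq => ?_⟩
  let : Fintype (κ q) := fκ q
  have : Nonempty (κ q) := neκ q
  -- the function averaged over the ball
  set G : XInf L → ℂ := fun u => T (fun p => F i (u, p)) q with hG
  have hGs : ∀ u, G u = ∑ p ∈ hD'.toFinset, finKer T q p * F i (u, p) := fun u => by
    simp only [hG]
    rw [hT.expand]
    refine finsum_eq_sum_of_support_subset _ fun p hp => ?_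
    simpa [D'] using ⟨q, hq, left_ne_zero_of_mul hp⟩
  have hGm : Measurable G := by
    rw [funext hGs]
    exact Finset.measurable_sum _ fun p _ =>
      ((hm i).comp (measurable_id.prodMk measurable_const)).const_mul _
  have hbd : ∀ x' ∈ stripInf c R, ∀ u ∈ xBall x', ∀ p ∈ D',
      ‖F i (u, p)‖ ≤ C * (Real.exp 1 * heightSum x') ^ (b + 1) := fun x' hx' u hu p hp => by
    refine (hC i u (xBall_subset_strip hx' hu) p hp).trans ?_
    exact mul_le_mul_of_nonneg_left
      (pow_le_pow_left₀ (heightSum_nonneg u) (heightSum_le_of_mem_xBall hu) _) hC0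
  have hGb : ∀ x' ∈ stripInf c R, ∀ u ∈ xBall x',
      ‖G u‖ ≤ S * (C * (Real.exp 1 * heightSum x') ^ (b + 1)) := fun x' hx' u hu => by
    rw [hGs]
    refine (norm_sum_le _ _).trans ?_
    calc ∑ p ∈ hD'.toFinset, ‖finKer T q p * F i (u, p)‖
        ≤ ∑ p ∈ hD'.toFinset, ‖finKer T q p‖ * (C * (Real.exp 1 * heightSum x') ^ (b + 1)) := by
          refine Finset.sum_le_sum fun p hp => ?_
          rw [norm_mul]
          exact mul_le_mul_of_nonneg_left (hbd x' hx' u hu p (hD'.mem_toFinset.mp hp))
            (norm_nonneg _)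
      _ ≤ _ := by
          rw [← Finset.sum_mul]
          refine mul_le_mul_of_nonneg_right ?_ (by have := heightSum_nonneg x'; positivity)
          exact Finset.single_le_sum
            (f := fun q => ∑ p ∈ hD'.toFinset, ‖finKer T q p‖)
            (fun _ _ => Finset.sum_nonneg fun _ _ => norm_nonneg _) (hD.mem_toFinset.mpr hq)
  have hGi : ∀ x' ∈ stripInf c R, IntegrableOn G (xBall x') μ := fun x' hx' =>
    IntegrableOn.of_bound (vol_xBall_lt_top x') hGm.aestronglyMeasurable _
      (ae_restrict_of_forall_mem (measurableSet_xBall x') (hGb x' hx'))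
  -- the operator
  have hval : yOp (yKer (fun _ => H3.ballKer 1) T) (F i) (x, q) = ∫ u in xBall x, G u ∂μ := by
    set s := hD'.toFinset
    have he : ∀ y : YSpace 𝔫, yKer (fun _ => H3.ballKer 1) T (x, q) y * F i y = ∑ p ∈ s,
        (xBall x).indicator (fun u => finKer T q p * F i (u, p)) y.1 *
          ({p} : Set (Cosets 𝔫)).indicator (fun _ => (1 : ℂ)) y.2 := by
      rintro ⟨u, p⟩
      simp only [yKer, prodKer_ball]
      by_cases hp : p ∈ s
      · rw [Finset.sum_eq_single_of_mem p hp fun p' _ h => by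
          rw [indicator_of_notMem (show p ∉ ({p'} : Set (Cosets 𝔫)) from fun h' => h h'.symm),
            mul_zero]]
        rw [indicator_of_mem (mem_singleton p), mul_one]
        by_cases hu : u ∈ xBall x <;> simp [hu]
      · have h0 : finKer T q p = 0 := by
          by_contra h0
          exact hp (hD'.mem_toFinset.mpr (mem_biUnion hq h0))
        rw [h0, mul_zero, zero_mul, eq_comm]
        refine Finset.sum_eq_zero fun p' hp' => ?_
        rw [indicator_of_notMem (show p ∉ ({p'} : Set (Cosets 𝔫)) from fun h' =>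
          hp (h'.symm ▸ hp')), mul_zero]
    have hint : ∀ p ∈ s, IntegrableOn (fun u => finKer T q p * F i (u, p)) (xBall x) μ := by
      intro p hp
      refine IntegrableOn.of_bound (vol_xBall_lt_top x)
        (((hm i).comp (measurable_id.prodMk measurable_const)).const_mul _).aestronglyMeasurable
        (‖finKer T q p‖ * (C * (Real.exp 1 * heightSum x) ^ (b + 1)))
        (ae_restrict_of_forall_mem (measurableSet_xBall x) fun u hu => ?_)
      rw [norm_mul]
      exact mul_le_mul_of_nonneg_left (hbd x hx u hu p (hD'.mem_toFinset.mp hp)) (norm_nonneg _)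
    have hcnt : ∀ p : Cosets 𝔫, Integrable (({p} : Set (Cosets 𝔫)).indicator fun _ => (1 : ℂ))
        Measure.count := fun p =>
      (integrable_indicator_iff (measurableSet_singleton p)).mpr
        (integrableOn_const (by simp) (by simp))
    rw [yOp, integral_congr_ae (Eventually.of_forall he), yVol]
    rw [integral_finsetSum _ fun p hp =>
      Integrable.mul_prod ((hint p hp).integrable_indicator (measurableSet_xBall x)) (hcnt p)]
    rw [funext hGs, integral_finsetSum _ fun p hp => hint p hp]
    refine Finset.sum_congr rfl fun p hp => ?_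
    rw [integral_prod_mul, integral_indicator (measurableSet_xBall x),
      integral_indicator (measurableSet_singleton p), setIntegral_const]
    simp [measureReal_def]
  simp only [hval]
  -- the vanishing sum
  have hsum : ∀ u, ∑ j, G (infAct (upperTri 1 (a q j) 1) u) = 0 := by
    intro u
    refine Eq.trans (Finset.sum_congr rfl fun j _ => ?_) (ha q
      (fun u' g => T (fun p => F i (u', p)) (g : Cosets 𝔫)) (fun γ x' g => ?_) (fun k hk x' g => ?_)
      (fun z x' g => ?_) (fun x' g k => hv (fun p => F i (x', p)) x' g k) u)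
    · rw [hG]
      simp only [QuotientGroup.out_eq']
    · rw [show ((rationalMat γ * g : GAf L) : Cosets 𝔫) = rationalMat γ • (g : Cosets 𝔫) from rfl,
        ← hT.equivariant]
      exact congrArg (fun f => T f (g : Cosets 𝔫))
        (funext fun p => hinv i (Matrix.ProjGenLinGroup.mk γ) (x', p))
    · refine congrArg (T _) (QuotientGroup.eq.mpr ?_)
      rw [mul_inv_rev, inv_mul_cancel_right]
      exact Subgroup.mem_sup_left (inv_mem hk)
    · refine congrArg (T _) (QuotientGroup.eq.mpr ?_)
      rw [mul_inv_rev, inv_mul_cancel_right, ← scalar_eq_upperTri]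
      exact Subgroup.mem_sup_right (inv_mem (by
        rw [Matrix.GeneralLinearGroup.center_eq_range_scalar]; exact ⟨z, rfl⟩))
  set x' : κ q → XInf L := fun j => infAct (upperTri 1 (a q j) 1) x with hx'
  have hshift : ∀ j w, x' j w = H3.shift (x w) (w.embedding (a q j)) := fun j w => by
    obtain ⟨h1, h2⟩ := infAct_upperTri 1 (a q j) x w
    refine H3.ext ?_ ?_
    · rw [hx']; simpa [H3.shift] using h1
    · rw [hx']; simpa [H3.shift] using h2
  have hx'S : ∀ j, x' j ∈ stripInf c R := fun j w => by
    simp only [hshift, H3.shift]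
    exact hx w
  have hmove : ∀ j, IntegrableOn (fun u => G (infAct (upperTri 1 (a q j) 1) u)) (xBall x) μ ∧
      ∫ u in xBall x, G (infAct (upperTri 1 (a q j) 1) u) ∂μ = ∫ u in xBall (x' j), G u ∂μ := by
    intro j
    have hp := measurePreserving_infAct (upperTri (1 : Lˣ) (a q j) 1)
    have he := (infEquiv (upperTri (1 : Lˣ) (a q j) 1)).measurableEmbedding
    rw [show xBall x = infAct (upperTri 1 (a q j) 1) ⁻¹' xBall (x' j) from (preimage_xBall _ x).symm]
    exact ⟨(hp.integrableOn_comp_preimage he).mpr (hGi _ (hx'S j)),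
      hp.setIntegral_preimage_emb he G _⟩
  have hzero : ∑ j, ∫ u in xBall (x' j), G u ∂μ = 0 := by
    rw [← Finset.sum_congr rfl fun j _ => (hmove j).2,
      ← integral_finsetSum _ fun j _ => (hmove j).1]
    simp [hsum]
  -- compare
  set I := ∫ u in xBall x, G u ∂μ
  set M := S * (C * (Real.exp 1 * heightSum x) ^ (b + 1)) with hM
  have hxs : ∀ j, heightSum (x' j) = heightSum x := fun j =>
    Finset.sum_congr rfl fun w _ => by rw [hshift]; rfl
  have hterm : ∀ j, ‖I - ∫ u in xBall (x' j), G u ∂μ‖ ≤
      2 * M * (K * ((∑ w : InfinitePlace L, ‖w.embedding (a q j)‖) * (n * max R 0) / heightSum x)) := by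
    intro j
    refine (norm_setIntegral_sub_le (μ := μ) (measurableSet_xBall _) (measurableSet_xBall _)
      (hGi x hx) (hGi _ (hx'S j)) (M := M) ?_ (vol_xBall_lt_top _) (vol_xBall_lt_top _)).trans ?_
    · rintro u (hu | hu)
      · exact hGb x hx u hu
      · have := hGb _ (hx'S j) u hu
        rwa [hxs] at this
    · have hM0 : 0 ≤ M := by have := heightSum_nonneg x; positivity
      have hτ : 0 < heightSum x := by
        obtain ⟨w⟩ : Nonempty (InfinitePlace L) := inferInstance
        exact (x w).t_pos.trans_le (le_heightSum x w)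
      have hb1 : ∀ w : InfinitePlace L, ‖w.embedding (a q j)‖ / (x w).t ≤
          ‖w.embedding (a q j)‖ * (n * max R 0) / heightSum x := fun w => by
        rw [div_le_div_iff₀ (x w).t_pos hτ, mul_assoc]
        refine mul_le_mul_of_nonneg_left ((heightSum_le hx w).trans ?_) (norm_nonneg _)
        exact mul_le_mul_of_nonneg_right
          (mul_le_mul_of_nonneg_left (le_max_left _ _) (Nat.cast_nonneg _)) (x w).t_pos.le
      have hbig : K * ∑ w : InfinitePlace L, ‖w.embedding (a q j)‖ / (x w).t ≤
          K * ((∑ w : InfinitePlace L, ‖w.embedding (a q j)‖) * (n * max R 0) / heightSum x) := by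
        rw [Finset.sum_mul, Finset.sum_div]
        exact mul_le_mul_of_nonneg_left (Finset.sum_le_sum fun w _ => hb1 w) hK
      have hnn : 0 ≤ K * ∑ w : InfinitePlace L, ‖w.embedding (a q j)‖ / (x w).t :=
        mul_nonneg hK (Finset.sum_nonneg fun w _ => div_nonneg (norm_nonneg _) (x w).t_pos.le)
      have h1 : μ.real (xBall x \ xBall (x' j)) ≤
          K * ∑ w : InfinitePlace L, ‖w.embedding (a q j)‖ / (x w).t :=
        ENNReal.toReal_le_of_le_ofReal hnn (hKv x (x' j) _ (hshift j))
      have h2 : μ.real (xBall (x' j) \ xBall x) ≤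
          K * ∑ w : InfinitePlace L, ‖w.embedding (a q j)‖ / (x w).t := by
        refine ENNReal.toReal_le_of_le_ofReal hnn ((hKv (x' j) x (fun w => -w.embedding (a q j))
          fun w => ?_).trans (le_of_eq ?_))
        · rw [hshift]
          refine H3.ext ?_ rfl
          simp [H3.shift]
        · simp [hshift, H3.shift]
      calc M * μ.real (xBall x \ xBall (x' j)) + M * μ.real (xBall (x' j) \ xBall x)
          ≤ M * (K * _) + M * (K * _) := add_le_add
            (mul_le_mul_of_nonneg_left (h1.trans hbig) hM0)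
            (mul_le_mul_of_nonneg_left (h2.trans hbig) hM0)
        _ = _ := by ring
  have hcard : (1 : ℝ) ≤ Fintype.card (κ q) := by exact_mod_cast Fintype.card_pos
  have hI : ‖I‖ ≤ ∑ j, ‖I - ∫ u in xBall (x' j), G u ∂μ‖ := by
    refine le_trans ?_ (norm_sum_le _ _)
    rw [Finset.sum_sub_distrib, hzero, sub_zero, Finset.sum_const, Finset.card_univ,
      ← Nat.cast_smul_eq_nsmul ℝ, norm_smul, Real.norm_of_nonneg (Nat.cast_nonneg _)]
    exact le_mul_of_one_le_left (norm_nonneg _) hcard
  refine hI.trans ((Finset.sum_le_sum fun j _ => hterm j).trans ?_)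
  rw [← Finset.mul_sum, ← Finset.mul_sum, ← Finset.sum_div, ← Finset.sum_mul]
  have hAq : ∑ j, ∑ w : InfinitePlace L, ‖w.embedding (a q j)‖ ≤ A :=
    Finset.single_le_sum
      (f := fun q => letI := fκ q; ∑ i, ∑ w : InfinitePlace L, ‖w.embedding (a q i)‖)
      (fun _ _ => Finset.sum_nonneg fun _ _ => Finset.sum_nonneg fun _ _ => norm_nonneg _)
      (hD.mem_toFinset.mpr hq)
  have hτ := heightSum_nonneg x
  calc 2 * M * (K * ((∑ j, ∑ w : InfinitePlace L, ‖w.embedding (a q j)‖) * (n * max R 0) /
        heightSum x))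
      ≤ 2 * M * (K * (A * (n * max R 0) / heightSum x)) := by
        gcongr
    _ ≤ _ := le_of_eq (by
      rw [hM, mul_pow, pow_succ (heightSum x) b]
      have : heightSum x ≠ 0 := by
        obtain ⟨w⟩ : Nonempty (InfinitePlace L) := inferInstance
        exact ((x w).t_pos.trans_le (le_heightSum x w)).ne'
      field_simp)

end FermatAgent.LT
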