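import Mathlib
import Fermat.Agent.LT.Descent.Spectral.Bound.BoxCount
import Fermat.Agent.LT.Descent.Spectral.Bound.Gain

set_option autoImplicit false

/-!
# Counting translates in cusp strips
-/

noncomputable section

open NumberField IsDedekindDomain WithZero Filter Set
open scoped MatrixGroups

namespace FermatAgent.LT

namespace H3

/-- The entries of a matrix of bounded determinant moving a point of a cusp strip a bounded
distance. -/
theorem exists_entry_bounds (R c M R' : ℝ) (hc : 0 < c) : ∃ B : ℝ, 0 ≤ B ∧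
    ∀ (g : GL (Fin 2) ℂ) (P : H3), ‖(g : Matrix (Fin 2) (Fin 2) ℂ).det‖ ≤ M → ‖P.z‖ ≤ R →
      c ≤ P.t → coshDist P (g • P) ≤ R' →
        ‖g 0 0‖ ≤ B ∧ ‖g 1 0‖ ≤ B ∧ ‖g 1 1‖ ≤ B ∧ ‖g 0 1‖ ≤ B * P.t := by
  obtain ⟨B, hB⟩ := entries_bounded (max (2 * R') 1) M
  set B₀ := |B|
  set R₀ := |R| / c
  refine ⟨B₀ + B₀ / c + R₀ * B₀ + R₀ * (B₀ + R₀ * B₀) + B₀, by positivity,
    fun g P hM hz ht hd => ?_⟩
  have hP := P.t_pos
  have htC : (P.t : ℂ) ≠ 0 := by simp [hP.ne']
  set a : GL (Fin 2) ℂ := upperTri (Units.mk0 (P.t : ℂ) htC) P.z 1 with ha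
  have haP : a • base = P := by
    obtain ⟨h1, h2⟩ := upperTri_smul (Units.mk0 (P.t : ℂ) htC) P.z base
    refine H3.ext ?_ ?_
    · simpa [base] using h1
    · simpa [base, abs_of_pos hP] using h2
  set h := a⁻¹ * g * a with hh
  have hd' : coshDist base (h • base) ≤ R' := by
    rw [← coshDist_inv a, hh, mul_smul, mul_smul, smul_inv_smul, haP]
    exact hd
  obtain ⟨b1, b2, b3⟩ := near_bounds hd'
  set R₁ := max (2 * R') 1
  have hR₁ : 0 < R₁ := lt_of_lt_of_le one_pos (le_max_right _ _)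
  have hb := hB h base (by
      rw [hh, Matrix.GeneralLinearGroup.coe_mul, Matrix.GeneralLinearGroup.coe_mul, Matrix.det_mul,
        Matrix.det_mul, mul_right_comm, ← Matrix.det_mul, ← Matrix.GeneralLinearGroup.coe_mul,
        inv_mul_cancel, Units.val_one, Matrix.det_one, one_mul]
      exact hM)
    (by simp [base, hR₁.le]) (by simp only [base]; rw [div_le_iff₀ hR₁]; simp [R₁])
    (by simp [base, R₁])
    (by
      simp only [base, norm_zero, zero_add, mul_one] at b3
      exact b3.trans (le_max_left _ _))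
    (by
      rw [div_le_iff₀ hR₁]
      rw [show base.t = 1 from rfl] at b2
      have : 2 * R' * (h • base).t ≤ R₁ * (h • base).t :=
        mul_le_mul_of_nonneg_right (le_max_left _ _) (h • base).t_pos.le
      change 1 ≤ (h • base).t * R₁
      linarith)
    (by simp only [base, mul_one] at b1; exact b1.trans (le_max_left _ _))
  have hb' : ∀ i j, ‖h i j‖ ≤ B₀ := fun i j => (hb i j).trans (le_abs_self _)
  have hg : g * a = a * h := by rw [hh, ← mul_assoc, ← mul_assoc, mul_inv_cancel, one_mul]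
  have e : ∀ i j, (g * a) i j = (a * h) i j := fun i j => by rw [hg]
  simp only [Matrix.GeneralLinearGroup.coe_mul, Matrix.mul_apply, Fin.sum_univ_two, ha, upperTri,
    Units.val_mk0, Units.val_one, Matrix.of_apply, Matrix.cons_val_zero, Matrix.cons_val_one] at e
  have e10 : g 1 0 = h 1 0 / P.t := by rw [eq_div_iff htC]; simpa using e 1 0
  have e00 : g 0 0 = h 0 0 + P.z / P.t * h 1 0 := by
    have := e 0 0
    simp at this
    field_simp
    linear_combination this
  have e11 : g 1 1 = h 1 1 - P.z / P.t * h 1 0 := by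
    have := e 1 1
    simp at this
    rw [e10] at this
    field_simp at this ⊢
    linear_combination this
  have e01 : g 0 1 = P.t * (h 0 1 + P.z / P.t * (h 1 1 - (h 0 0 + P.z / P.t * h 1 0))) := by
    have := e 0 1
    simp at this
    rw [e00] at this
    field_simp at this ⊢
    linear_combination this
  have hr : ‖P.z / (P.t : ℂ)‖ ≤ R₀ := by
    rw [norm_div, Complex.norm_real, Real.norm_of_nonneg hP.le]
    exact div_le_div₀ (abs_nonneg _) (hz.trans (le_abs_self _)) hc ht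
  have h10 : ‖P.z / (P.t : ℂ) * h 1 0‖ ≤ R₀ * B₀ := by
    rw [norm_mul]; exact mul_le_mul hr (hb' 1 0) (norm_nonneg _) (by positivity)
  have p1 : 0 ≤ B₀ / c := by positivity
  have p2 : 0 ≤ R₀ * B₀ := by positivity
  have p3 : 0 ≤ R₀ * (B₀ + R₀ * B₀) := by positivity
  have p4 : 0 ≤ B₀ := by positivity
  refine ⟨?_, ?_, ?_, ?_⟩
  · rw [e00]
    linarith [norm_add_le (h 0 0) (P.z / P.t * h 1 0), hb' 0 0]
  · rw [e10, norm_div, Complex.norm_real, Real.norm_of_nonneg hP.le]
    linarith [div_le_div₀ p4 (hb' 1 0) hc ht]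
  · rw [e11]
    linarith [norm_sub_le (h 1 1) (P.z / P.t * h 1 0), hb' 1 1]
  · rw [e01, norm_mul, Complex.norm_real, Real.norm_of_nonneg hP.le, mul_comm]
    refine mul_le_mul_of_nonneg_right ?_ hP.le
    have h2 : ‖P.z / (P.t : ℂ) * (h 1 1 - (h 0 0 + P.z / P.t * h 1 0))‖ ≤
        R₀ * (B₀ + (B₀ + R₀ * B₀)) := by
      rw [norm_mul]
      refine mul_le_mul hr ?_ (norm_nonneg _) (by positivity)
      linarith [norm_sub_le (h 1 1) (h 0 0 + P.z / P.t * h 1 0),
        norm_add_le (h 0 0) (P.z / P.t * h 1 0), hb' 0 0, hb' 1 1]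
    rw [mul_add] at h2
    linarith [norm_add_le (h 0 1) (P.z / P.t * (h 1 1 - (h 0 0 + P.z / P.t * h 1 0))), hb' 0 1]

end H3

variable {L : Type*} [Field L] [NumberField L] [IsTotallyComplex L] {𝔫 : Ideal (𝓞 L)}

/-- Few elements move a point of a cusp strip at one coset to a point at bounded distance at
another coset. -/
theorem exists_count (h𝔫 : 𝔫 ≠ ⊥) (d d' : Cosets 𝔫) {c : ℝ} (hc : 0 < c) (R R' : ℝ) :
    ∃ C : ℝ, 0 ≤ C ∧ ∀ x ∈ stripInf c R, ∃ s : Finset (PGL(2, L)),
      (s.card : ℝ) ≤ C * heightSum x ^ (2 * Fintype.card (InfinitePlace L)) ∧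
      ∀ η : PGL(2, L), (η • ((x, d) : YSpace 𝔫)).2 = d' →
        (∀ w, H3.coshDist (x w) ((η • ((x, d) : YSpace 𝔫)).1 w) ≤ R') → η ∈ s := by
  classical
  obtain ⟨f, hf, hfix⟩ := exists_fix_exp h𝔫 ({d.out, d'.out} : Finset (GAf L))
  obtain ⟨m, hm, hmv⟩ := exists_int_small f hf
  obtain ⟨Rz, hRz⟩ := exists_translation (K := L) hm
  obtain ⟨e, Δ, he, hΔ, hlift⟩ := exists_scaled_lift d d'
  set M := ∑ δ ∈ hΔ.toFinset, ∑ w : InfinitePlace L, ‖w.embedding (δ : L)‖
  obtain ⟨B, hB, hBb⟩ := H3.exists_entry_bounds Rz c M R' hc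
  set E := {a : L | (∀ v : HeightOneSpectrum (𝓞 L), Valued.v (loc v a) ≤ exp (e v : ℤ)) ∧
      ∀ w : InfinitePlace L, ‖w.embedding a‖ ≤ B}
  have hE : E.Finite := finite_bounded e he B
  obtain ⟨C, hC, hbox⟩ := exists_box_count e he
  set k := 2 * Fintype.card (InfinitePlace L)
  refine ⟨(hE.toFinset.card : ℝ) ^ 3 * (C * (B + 1 / c) ^ k), by positivity, fun x hx => ?_⟩
  set τ := heightSum x
  have hτc : c ≤ τ := by
    obtain ⟨w⟩ : Nonempty (InfinitePlace L) := inferInstance
    exact (hx w).1.trans (le_heightSum x w)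
  have hX : 1 ≤ (B + 1 / c) * τ := by
    have h1 : 1 / c * c ≤ 1 / c * τ := mul_le_mul_of_nonneg_left hτc (by positivity)
    rw [one_div_mul_cancel hc.ne'] at h1
    rw [add_mul]
    have h2 : 0 ≤ B * τ := mul_nonneg hB (hc.le.trans hτc)
    linarith
  obtain ⟨sb, hsb, hsb'⟩ := hbox _ hX
  -- translate to bounded horizontal coordinates
  obtain ⟨β, hβ, hz⟩ := hRz fun w => (x w).z
  set σ : GL (Fin 2) L := upperTri 1 (β : L) 1 with hσ
  set S : PGL(2, L) := Matrix.ProjGenLinGroup.mk σ with hS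
  have hβN : IsNearOne f (rationalMat σ) := by
    rw [hσ, rationalMat_upperTri, map_one]
    exact isNearOne_upperUni (algebraMap_mem_smallAdeles hmv hβ)
  have hfx : ∀ g ∈ ({d.out, d'.out} : Finset (GAf L)),
      rationalMat σ • (g : Cosets 𝔫) = (g : Cosets 𝔫) := fun g hg => hfix _ hβN g hg
  have hfd : rationalMat σ • d = d := by
    have := hfx d.out (by simp)
    rwa [QuotientGroup.out_eq'] at this
  have hfd' : rationalMat σ • d' = d' := by
    have := hfx d'.out (by simp)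
    rwa [QuotientGroup.out_eq'] at this
  set x₁ := infAct σ x with hx₁
  have hx₁z : ∀ w, (x₁ w).z = (x w).z + w.embedding (β : L) ∧ (x₁ w).t = (x w).t := fun w => by
    obtain ⟨h1, h2⟩ := infAct_upperTri 1 (β : L) x w
    simp only [Units.val_one, map_one, one_mul, norm_one] at h1 h2
    exact ⟨by rw [hx₁, hσ, h1], by rw [hx₁, hσ, h2]⟩
  -- the candidates
  set tup : Finset ((L × L × L) × L) :=
    (hE.toFinset ×ˢ (hE.toFinset ×ˢ hE.toFinset)) ×ˢ sb
  let mat : (L × L × L) × L → Matrix (Fin 2) (Fin 2) L := fun p => !![p.1.1, p.2; p.1.2.1, p.1.2.2]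
  let toP : (L × L × L) × L → PGL(2, L) := fun p =>
    if hp : (mat p).det ≠ 0 then
      S⁻¹ * Matrix.ProjGenLinGroup.mk (Matrix.GeneralLinearGroup.mkOfDetNeZero (mat p) hp) * S
    else 1
  refine ⟨tup.image toP, ?_, fun η hq hd => ?_⟩
  · refine (Nat.cast_le.mpr Finset.card_image_le).trans ?_
    simp only [tup, Finset.card_product, Nat.cast_mul]
    refine (mul_le_mul_of_nonneg_left hsb (by positivity)).trans (le_of_eq ?_)
    rw [mul_pow]
    ring
  · obtain ⟨γ, hγ⟩ : ∃ γ : GL (Fin 2) L, Matrix.ProjGenLinGroup.mk γ = S * η * S⁻¹ := by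
      generalize S * η * S⁻¹ = q
      induction q using Matrix.ProjGenLinGroup.induction_on with | mk γ => exact ⟨γ, rfl⟩
    have hSx : S • ((x, d) : YSpace 𝔫) = (x₁, d) := by
      rw [hS, mk_smul]; exact Prod.ext rfl hfd
    have himg : Matrix.ProjGenLinGroup.mk γ • ((x₁, d) : YSpace 𝔫) =
        (infAct σ (η • ((x, d) : YSpace 𝔫)).1, d') := by
      rw [hγ, ← hSx, mul_smul, inv_smul_smul, mul_smul, hS, mk_smul]
      refine Prod.ext rfl ?_
      change rationalMat σ • (η • ((x, d) : YSpace 𝔫)).2 = d'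
      rw [hq, hfd']
    rw [mk_smul] at himg
    obtain ⟨γ₂, hmk, hact, hdet, hent⟩ := hlift γ (congrArg Prod.snd himg)
    have hdist : ∀ w, H3.coshDist (x₁ w) (infAct γ₂ x₁ w) ≤ R' := fun w => by
      rw [hact, show infAct γ x₁ = infAct σ (η • ((x, d) : YSpace 𝔫)).1 from congrArg Prod.fst himg,
        hx₁]
      change H3.coshDist (Matrix.GeneralLinearGroup.map w.embedding σ • x w)
        (Matrix.GeneralLinearGroup.map w.embedding σ • (η • ((x, d) : YSpace 𝔫)).1 w) ≤ R'
      rw [H3.coshDist_inv]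
      exact hd w
    have hb := fun w : InfinitePlace L => hBb (Matrix.GeneralLinearGroup.map w.embedding γ₂) (x₁ w)
      (by
        rw [show ((Matrix.GeneralLinearGroup.map w.embedding γ₂ : GL (Fin 2) ℂ) :
            Matrix (Fin 2) (Fin 2) ℂ) = (γ₂ : Matrix (Fin 2) (Fin 2) L).map w.embedding from rfl,
          ← RingHom.mapMatrix_apply, ← RingHom.map_det, ← Matrix.GeneralLinearGroup.val_det_apply]
        exact (Finset.single_le_sum (f := fun w : InfinitePlace L =>
            ‖w.embedding ((Matrix.GeneralLinearGroup.det γ₂ : Lˣ) : L)‖)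
            (fun _ _ => norm_nonneg _) (Finset.mem_univ w)).trans
          (Finset.single_le_sum (f := fun δ : Lˣ => ∑ w : InfinitePlace L, ‖w.embedding (δ : L)‖)
            (fun _ _ => Finset.sum_nonneg fun _ _ => norm_nonneg _) (hΔ.mem_toFinset.mpr hdet)))
      (by rw [(hx₁z w).1]; exact hz w) (by rw [(hx₁z w).2]; exact (hx w).1) (hdist w)
    simp only [Matrix.GeneralLinearGroup.map_apply] at hb
    set p : (L × L × L) × L := ((γ₂ 0 0, γ₂ 1 0, γ₂ 1 1), γ₂ 0 1)
    have hp : mat p = (γ₂ : Matrix (Fin 2) (Fin 2) L) := by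
      ext i j; fin_cases i <;> fin_cases j <;> simp [mat, p]
    refine Finset.mem_image.mpr ⟨p, ?_, ?_⟩
    · simp only [tup, p, Finset.mem_product, Set.Finite.mem_toFinset]
      refine ⟨⟨⟨fun v => hent v 0 0, fun w => (hb w).1⟩, ⟨fun v => hent v 1 0, fun w => (hb w).2.1⟩,
        ⟨fun v => hent v 1 1, fun w => (hb w).2.2.1⟩⟩, hsb' _ (fun v => hent v 0 1) fun w => ?_⟩
      refine (hb w).2.2.2.trans ?_
      rw [(hx₁z w).2]
      exact (mul_le_mul_of_nonneg_left (le_heightSum x w) hB).trans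
        (mul_le_mul_of_nonneg_right (le_add_of_nonneg_right (by positivity)) (hc.le.trans hτc))
    · have hdp : (mat p).det ≠ 0 := by rw [hp]; exact γ₂.det_ne_zero
      simp only [toP, dif_pos hdp]
      rw [show Matrix.GeneralLinearGroup.mkOfDetNeZero (mat p) hdp = γ₂ from Units.ext hp, hmk, hγ]
      group

/-- The sum of an invariant kernel over the group grows at most like the `2n`-th power of the
height. -/
theorem IsYKernel.hasStripGrowth_kerSum (h𝔫 : 𝔫 ≠ ⊥) {k : YSpace 𝔫 → YSpace 𝔫 → ℂ}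
    (hk : IsYKernel k) :
    HasStripGrowth (fun z y => kerSum k y z) (2 * Fintype.card (InfinitePlace L)) := by
  classical
  intro c R hc D hD
  obtain ⟨C₀, hC₀⟩ := hk.bounded
  obtain ⟨R', hR'⟩ := hk.supp
  choose s hs hs' using hk.fin
  set D' := ⋃ q ∈ D, s q
  have hD' : D'.Finite := hD.biUnion fun q _ => hs q
  choose C hC hcount using fun p : Cosets 𝔫 × Cosets 𝔫 =>
    exists_count h𝔫 p.1 p.2 hc R (1 + 32 * R' * R' * (R' ^ 2 + R' ^ 2))
  set P := hD'.toFinset ×ˢ hD'.toFinset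
  refine ⟨max C₀ 0 * ∑ p ∈ P, C p,
    mul_nonneg (le_max_right _ _) (Finset.sum_nonneg fun p _ => hC p), fun z x hx q hq => ?_⟩
  choose S hS hS' using fun p => hcount p x hx
  set τ := heightSum x ^ (2 * Fintype.card (InfinitePlace L))
  have hfin := hk.finite_kerSum (x, q) z
  have hnorm : ‖kerSum k (x, q) z‖ ≤ hfin.toFinset.card * max C₀ 0 := by
    rw [kerSum, tsum_eq_sum (s := hfin.toFinset) fun γ hγ => by simpa using hγ]
    refine (norm_sum_le _ _).trans ((Finset.sum_le_card_nsmul _ _ (max C₀ 0) fun γ _ =>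
      (hC₀ _ _).trans (le_max_left _ _)).trans_eq (nsmul_eq_mul _ _))
  change ‖kerSum k (x, q) z‖ ≤ _
  refine hnorm.trans ?_
  rw [mul_comm, mul_assoc, Finset.sum_mul]
  refine mul_le_mul_of_nonneg_left ?_ (le_max_right _ _)
  rcases hfin.toFinset.eq_empty_or_nonempty with h0 | ⟨γ₀, hγ₀⟩
  · rw [h0, Finset.card_empty, Nat.cast_zero]
    exact Finset.sum_nonneg fun p _ => mul_nonneg (hC p) (pow_nonneg (heightSum_nonneg x) _)
  have hcard : hfin.toFinset.card ≤ (P.biUnion S).card := by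
    refine Finset.card_le_card_of_injOn (fun γ => γ * γ₀⁻¹) (fun γ hγ => ?_)
      (mul_left_injective _).injOn
    simp only [Finset.mem_coe, Set.Finite.mem_toFinset, Function.mem_support] at hγ hγ₀
    have h1 := (hs' q _ _ hγ).1 rfl
    have h2 := (hs' q _ _ hγ₀).1 rfl
    refine Finset.mem_coe.mpr (Finset.mem_biUnion.mpr ⟨((γ₀ • z).2, (γ • z).2),
      Finset.mem_product.mpr ⟨hD'.mem_toFinset.mpr (mem_biUnion hq h2),
        hD'.mem_toFinset.mpr (mem_biUnion hq h1)⟩, hS' _ _ ?_ ?_⟩)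
    · obtain ⟨η, hη⟩ : ∃ η : GL (Fin 2) L, Matrix.ProjGenLinGroup.mk η = γ * γ₀⁻¹ := by
        generalize γ * γ₀⁻¹ = g
        induction g using Matrix.ProjGenLinGroup.induction_on with | mk η => exact ⟨η, rfl⟩
      have h3 := congrArg Prod.snd
        (show (γ * γ₀⁻¹) • (γ₀ • z) = γ • z by rw [mul_smul, inv_smul_smul])
      dsimp only
      rw [← hη, mk_smul] at h3 ⊢
      exact h3
    · intro w
      obtain ⟨η, hη⟩ : ∃ η : GL (Fin 2) L, Matrix.ProjGenLinGroup.mk η = γ * γ₀⁻¹ := by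
        generalize γ * γ₀⁻¹ = g
        induction g using Matrix.ProjGenLinGroup.induction_on with | mk η => exact ⟨η, rfl⟩
      have h3 := congrArg Prod.fst
        (show (γ * γ₀⁻¹) • (γ₀ • z) = γ • z by rw [mul_smul, inv_smul_smul])
      dsimp only
      rw [← hη, mk_smul] at h3 ⊢
      simp only at h3 ⊢
      have a1 := hR' _ _ hγ w
      have a2 := hR' _ _ hγ₀ w
      simp only at a1 a2
      rw [← h3] at a1
      have a3 : H3.coshDist (infAct η (γ₀ • z).1 w) (infAct η x w) ≤ R' := by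
        rw [H3.coshDist_symm]
        simp only [infAct, H3.coshDist_inv]
        exact a2
      refine (H3.coshDist_le_mul _ (infAct η (γ₀ • z).1 w) _).trans ?_
      have b1 := H3.coshDist_ge_one (x w) (infAct η (γ₀ • z).1 w)
      have b2 := H3.coshDist_ge_one (infAct η (γ₀ • z).1 w) (infAct η x w)
      have : (0 : ℝ) ≤ R' := by linarith
      gcongr
  refine (Nat.cast_le.mpr (hcard.trans Finset.card_biUnion_le)).trans ?_
  rw [Nat.cast_sum]
  exact Finset.sum_le_sum fun p _ => hS p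

end FermatAgent.LT
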